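import Fermat.Agent.WienerIkehara.Series
import Mathlib.Analysis.Complex.CauchyIntegral
import Mathlib.Analysis.Complex.RealDeriv
import Mathlib.Analysis.Complex.RemovableSingularity
import Mathlib.Analysis.Real.Pi.Bounds
import Mathlib.NumberTheory.Harmonic.ZetaAsymp
import Mathlib.NumberTheory.LSeries.HurwitzZetaValues

/-!
# Ordered factorisations

The lists of integers `≥ 2` give the series `1 / (2 - ζ s)`, whose only singularity on `ρ ≤ re s`
is the simple pole at the real `ρ` with `ζ ρ = 2`, as `2 ^ (-i t) = 3 ^ (-i t) = 1` forces `t = 0`.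
-/

set_option autoImplicit false

noncomputable section

namespace FA.Kalmar

open Filter Set Complex
open scoped Topology

/-- The term `(k + 2) ^ (-s)`. -/
def term (s : ℂ) (k : ℕ) : ℂ := cexp (-(s * Real.log (k + 2 : ℕ)))

/-- `ζ σ - 1`, for real `σ`. -/
def zetaTail (σ : ℝ) : ℝ := ∑' k : ℕ, ((k + 2 : ℕ) : ℝ) ^ (-σ)

/-- The logarithm of the product of the entries, shifted by `2`. -/
def logProd (L : List ℕ) : ℝ := (L.map fun k => Real.log (k + 2 : ℕ)).sum

theorem norm_term (s : ℂ) (k : ℕ) : ‖term s k‖ = ((k + 2 : ℕ) : ℝ) ^ (-s.re) := by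
  rw [term, Complex.norm_exp, Real.rpow_def_of_pos (by positivity)]
  simp [mul_comm]

theorem summable_tail {σ : ℝ} (hσ : 1 < σ) :
    Summable fun k : ℕ => ((k + 2 : ℕ) : ℝ) ^ (-σ) :=
  (Real.summable_nat_rpow.2 (by linarith)).comp_injective (add_left_injective 2)

theorem summable_norm_term {s : ℂ} (hs : 1 < s.re) : Summable fun k => ‖term s k‖ :=
  (summable_tail hs).congr fun k => (norm_term s k).symm

theorem tsum_term {s : ℂ} (hs : 1 < s.re) : ∑' k, term s k = riemannZeta s - 1 := by
  have hterm : ∀ k : ℕ, term s k = 1 / (((k + 1 : ℕ) : ℂ) + 1) ^ s := fun k => by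
    rw [one_div, ← Complex.cpow_neg,
      Complex.cpow_def_of_ne_zero (Nat.cast_add_one_ne_zero (k + 1)),
      term, show (((k + 1 : ℕ) : ℂ) + 1) = ((k + 2 : ℕ) : ℂ) by push_cast; ring,
      ← Complex.natCast_log]
    ring_nf
  have hsum : Summable fun n : ℕ => 1 / ((n : ℂ) + 1) ^ s := by
    refine ((summable_nat_add_iff 1).2 (Complex.summable_one_div_nat_cpow.2 hs)).congr fun n => ?_
    push_cast
    rfl
  rw [zeta_eq_tsum_one_div_nat_add_one_cpow hs, hsum.tsum_eq_zero_add, tsum_congr hterm]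
  simp

theorem riemannZeta_ofReal {σ : ℝ} (hσ : 1 < σ) :
    riemannZeta σ = ((1 + zetaTail σ : ℝ) : ℂ) := by
  have h := tsum_term (s := (σ : ℂ)) (by simpa using hσ)
  have e : ∑' k, term (σ : ℂ) k = ((zetaTail σ : ℝ) : ℂ) := by
    rw [zetaTail, Complex.ofReal_tsum]
    refine tsum_congr fun k => ?_
    rw [term, Real.rpow_def_of_pos (by positivity), Complex.ofReal_exp]
    push_cast
    ring_nf
  rw [e] at h
  push_cast
  linear_combination -h

theorem zetaTail_sub_ge {a b : ℝ} (ha : 1 < a) (hab : a ≤ b) :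
    (2 : ℝ) ^ (-a) - (2 : ℝ) ^ (-b) ≤ zetaTail a - zetaTail b := by
  have hb : 1 < b := ha.trans_le hab
  rw [zetaTail, zetaTail, ← (summable_tail ha).tsum_sub (summable_tail hb)]
  refine le_trans (le_of_eq ?_) (((summable_tail ha).sub (summable_tail hb)).le_tsum 0 fun k _ =>
    sub_nonneg.2 (Real.rpow_le_rpow_of_exponent_le (Nat.one_le_cast.2 (by omega)) (by linarith)))
  norm_num

theorem zetaTail_lt {a b : ℝ} (ha : 1 < a) (hab : a < b) : zetaTail b < zetaTail a := by
  have := zetaTail_sub_ge ha hab.le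
  have : (2 : ℝ) ^ (-b) < (2 : ℝ) ^ (-a) :=
    Real.rpow_lt_rpow_of_exponent_lt one_lt_two (by linarith)
  linarith

theorem continuousOn_zetaTail : ContinuousOn zetaTail (Ioi 1) := by
  have h : ContinuousOn (fun σ : ℝ => (riemannZeta σ).re - 1) (Ioi 1) := fun σ (hσ : 1 < σ) => by
    refine ((Complex.continuous_re.continuousAt.comp
      ((differentiableAt_riemannZeta ?_).continuousAt.comp
        Complex.continuous_ofReal.continuousAt)).sub continuousAt_const).continuousWithinAt
    exact fun e => hσ.ne' (Complex.ofReal_eq_one.1 e)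
  refine h.congr fun σ hσ => ?_
  show zetaTail σ = (riemannZeta (σ : ℂ)).re - 1
  rw [riemannZeta_ofReal hσ, ofReal_re]
  ring

theorem exists_zetaTail_eq_one : ∃ ρ : ℝ, 1 < ρ ∧ ρ < 2 ∧ zetaTail ρ = 1 := by
  have h2 : zetaTail 2 < 1 := by
    have e := riemannZeta_ofReal (show (1 : ℝ) < 2 by norm_num)
    push_cast at e
    rw [riemannZeta_two] at e
    have e' : Real.pi ^ 2 / 6 = 1 + zetaTail 2 := by exact_mod_cast e
    nlinarith [Real.pi_lt_d2, Real.pi_pos]
  have hlim : Tendsto (fun σ : ℝ => (σ - 1) * (1 + zetaTail σ)) (𝓝[>] 1) (𝓝 1) := by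
    have hm : Tendsto (fun σ : ℝ => (σ : ℂ)) (𝓝[>] 1) (𝓝[≠] 1) := by
      refine tendsto_nhdsWithin_iff.2 ⟨?_, ?_⟩
      · simpa using (Complex.continuous_ofReal.tendsto 1).mono_left nhdsWithin_le_nhds
      · filter_upwards [self_mem_nhdsWithin] with σ hσ e
        exact (ne_of_gt hσ) (Complex.ofReal_eq_one.1 e)
    refine ((Complex.continuous_re.tendsto _).comp (riemannZeta_residue_one.comp hm)).congr' ?_
    filter_upwards [self_mem_nhdsWithin] with σ hσ
    rw [Function.comp_apply, Function.comp_apply, riemannZeta_ofReal hσ, ← ofReal_one,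
      ← ofReal_sub, ← ofReal_mul, ofReal_re]
  have hself : ∀ᶠ σ in 𝓝[>] (1 : ℝ), 1 < σ := self_mem_nhdsWithin
  obtain ⟨a, ⟨ha, ha'⟩, ha1, ha2⟩ := ((hlim.eventually (eventually_gt_nhds
    (show (1 / 2 : ℝ) < 1 by norm_num))).and ((eventually_nhdsWithin_of_eventually_nhds
      (eventually_lt_nhds (show (1 : ℝ) < 5 / 4 by norm_num))))).and
        (hself.and
          (eventually_nhdsWithin_of_eventually_nhds
            (eventually_lt_nhds (show (1 : ℝ) < 2 by norm_num)))) |>.exists
  have hgt : 1 < zetaTail a := by nlinarith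
  obtain ⟨ρ, ⟨hρ1, hρ2⟩, hρ⟩ := intermediate_value_Ioo' ha2.le
    (continuousOn_zetaTail.mono fun x hx => ha1.trans_le hx.1) ⟨h2, hgt⟩
  exact ⟨ρ, ha1.trans hρ1, hρ2, hρ⟩

/-- The solution of `ζ ρ = 2`. -/
def rho : ℝ := exists_zetaTail_eq_one.choose

theorem one_lt_rho : 1 < rho := exists_zetaTail_eq_one.choose_spec.1

theorem zetaTail_rho : zetaTail rho = 1 := exists_zetaTail_eq_one.choose_spec.2.2

theorem eq_rho {σ : ℝ} (hσ : 1 < σ) (h : riemannZeta σ = 2) : σ = rho := by
  rw [riemannZeta_ofReal hσ] at h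
  have h' : 1 + zetaTail σ = 2 := by exact_mod_cast h
  rcases lt_trichotomy σ rho with hlt | heq | hgt
  · linarith [zetaTail_lt hσ hlt, zetaTail_rho]
  · exact heq
  · linarith [zetaTail_lt one_lt_rho hgt, zetaTail_rho]

theorem riemannZeta_rho : riemannZeta (rho : ℂ) = 2 := by
  rw [riemannZeta_ofReal one_lt_rho, zetaTail_rho]
  norm_num

/-- **`ζ s = 2` has no other solution on `ρ ≤ re s`.** -/
theorem eq_rho_of_zeta_eq_two {s : ℂ} (hs : rho ≤ s.re) (h : riemannZeta s = 2) :
    s = (rho : ℂ) := by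
  have hs1 : 1 < s.re := one_lt_rho.trans_le hs
  have hq : ∑' k, term s k = 1 := by rw [tsum_term hs1, h]; norm_num
  have hge : 1 ≤ zetaTail s.re := by
    have := norm_tsum_le_tsum_norm (summable_norm_term hs1)
    rw [hq, norm_one] at this
    exact this.trans_eq (tsum_congr fun k => norm_term s k)
  have hre : s.re = rho := hs.antisymm' (not_lt.1 fun hlt =>
    (hge.trans_lt (zetaTail_lt one_lt_rho hlt)).ne' zetaTail_rho)
  have hre0 : HasSum (fun k => ((k + 2 : ℕ) : ℝ) ^ (-s.re) - (term s k).re) 0 := by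
    have h1 := Complex.hasSum_re (summable_norm_term hs1).of_norm.hasSum
    rw [hq, one_re] at h1
    have h2 : HasSum (fun k : ℕ => ((k + 2 : ℕ) : ℝ) ^ (-s.re)) 1 := by
      rw [hre]
      exact zetaTail_rho ▸ (summable_tail one_lt_rho).hasSum
    simpa using h2.sub h1
  have hcos : ∀ k : ℕ, Real.cos (s.im * Real.log (k + 2 : ℕ)) = 1 := fun k => by
    have hk := (hasSum_zero_iff_of_nonneg (fun i => sub_nonneg.2
      ((Complex.re_le_norm _).trans_eq (norm_term s i)))).1 hre0
    have h0 := congrFun hk k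
    rw [Pi.zero_apply, sub_eq_zero, term, Complex.exp_re,
      Real.rpow_def_of_pos (by positivity)] at h0
    simp only [neg_re, neg_im, mul_re, mul_im, ofReal_re, ofReal_im, mul_zero, sub_zero,
      zero_add, Real.cos_neg] at h0
    rw [mul_neg, mul_comm (Real.log _) s.re] at h0
    exact mul_left_cancel₀ (Real.exp_pos _).ne' (by rw [mul_one]; exact h0.symm)
  refine Complex.ext (by simpa using hre) ?_
  rw [ofReal_im]
  by_contra ht
  obtain ⟨a, ha⟩ := (Real.cos_eq_one_iff _).1 (hcos 0)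
  obtain ⟨b, hb⟩ := (Real.cos_eq_one_iff _).1 (hcos 1)
  norm_num at ha hb
  have hl2 : 0 < Real.log 2 := Real.log_pos one_lt_two
  have hl3 : 0 < Real.log 3 := Real.log_pos (by norm_num)
  have hπ := Real.pi_pos
  have hab : (a : ℝ) * Real.log 3 = (b : ℝ) * Real.log 2 := by
    have : s.im * ((a : ℝ) * Real.log 3 - (b : ℝ) * Real.log 2) = 0 := by
      have e : (s.im * Real.log 2) * (b : ℝ) = (s.im * Real.log 3) * (a : ℝ) := by
        rw [← ha, ← hb]; ring
      linarith
    exact sub_eq_zero.1 ((mul_eq_zero.1 this).resolve_left ht)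
  have ha0 : a ≠ 0 := fun e => by
    rw [e, Int.cast_zero, zero_mul] at ha
    exact mul_ne_zero ht hl2.ne' ha.symm
  have habs : (a.natAbs : ℝ) * Real.log 3 = (b.natAbs : ℝ) * Real.log 2 := by
    rw [Nat.cast_natAbs, Nat.cast_natAbs, Int.cast_abs, Int.cast_abs,
      ← abs_of_pos hl3, ← abs_mul, hab, abs_mul, abs_of_pos hl2]
  rw [← Real.log_pow, ← Real.log_pow] at habs
  have heq' : (3 : ℝ) ^ a.natAbs = (2 : ℝ) ^ b.natAbs :=
    Real.log_injOn_pos (Set.mem_Ioi.2 (pow_pos (by norm_num : (0 : ℝ) < 3) _))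
      (Set.mem_Ioi.2 (pow_pos (by norm_num : (0 : ℝ) < 2) _)) habs
  have heq : 3 ^ a.natAbs = 2 ^ b.natAbs := by exact_mod_cast heq'
  have hodd : Odd (3 ^ a.natAbs) := (show Odd 3 by decide).pow
  rw [heq] at hodd
  rcases Nat.eq_zero_or_pos b.natAbs with hb0 | hb0
  · rw [hb0, pow_zero] at heq
    exact (Nat.one_lt_pow (Int.natAbs_ne_zero.2 ha0) (by norm_num)).ne' heq
  · exact Nat.not_even_iff_odd.2 hodd ((show Even 2 by decide).pow_of_ne_zero hb0.ne')

theorem differentiableOn_zeta : DifferentiableOn ℂ riemannZeta {s | 1 < s.re} := fun s hs => by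
  refine (differentiableAt_riemannZeta fun e => ?_).differentiableWithinAt
  rw [e] at hs
  simp at hs

theorem isOpen_half : IsOpen {s : ℂ | 1 < s.re} :=
  isOpen_lt continuous_const Complex.continuous_re

theorem mem_half_rho : (rho : ℂ) ∈ {s : ℂ | 1 < s.re} := by simpa using one_lt_rho

theorem deriv_zeta_rho_neg : (deriv riemannZeta (rho : ℂ)).re < 0 := by
  have hd := ((differentiableOn_zeta.differentiableAt
    (isOpen_half.mem_nhds mem_half_rho)).hasDerivAt).real_of_complex
  have h2 : HasDerivAt (fun σ : ℝ => (2 : ℝ) ^ (-σ))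
      (-((2 : ℝ) ^ (-rho) * Real.log 2)) rho := by
    exact ((hasDerivAt_id rho).fun_neg.const_rpow two_pos).congr_deriv (by simp [mul_comm])
  have hlim := (hd.sub h2).tendsto_slope.mono_left
    (nhdsWithin_mono rho (fun x hx => ne_of_gt hx : Ioi rho ⊆ {rho}ᶜ))
  have hle : (deriv riemannZeta (rho : ℂ)).re - -((2 : ℝ) ^ (-rho) * Real.log 2) ≤ 0 := by
    refine le_of_tendsto hlim ?_
    filter_upwards [self_mem_nhdsWithin] with x (hx : rho < x)
    rw [slope_def_field]
    refine div_nonpos_of_nonpos_of_nonneg ?_ (sub_pos.2 hx).le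
    simp only [Pi.sub_apply, riemannZeta_ofReal (one_lt_rho.trans hx),
      riemannZeta_ofReal one_lt_rho, ofReal_re]
    linarith [zetaTail_sub_ge one_lt_rho hx.le]
  nlinarith [Real.rpow_pos_of_pos two_pos (-rho), Real.log_pos one_lt_two]

theorem deriv_zeta_rho_ofReal :
    deriv riemannZeta (rho : ℂ) = ((deriv riemannZeta (rho : ℂ)).re : ℂ) := by
  have h1 := (differentiableOn_zeta.differentiableAt
    (isOpen_half.mem_nhds mem_half_rho)).hasDerivAt
  have h2 := h1.real_of_complex.ofReal_comp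
  have h3 : HasDerivAt (fun σ : ℝ => riemannZeta σ) (deriv riemannZeta (rho : ℂ)) rho :=
    h1.comp_ofReal
  refine (h3.congr_of_eventuallyEq ?_).unique h2
  filter_upwards [Ioi_mem_nhds one_lt_rho] with σ hσ
  rw [riemannZeta_ofReal hσ, ofReal_re]

theorem logProd_cons (k : ℕ) (L : List ℕ) :
    logProd (k :: L) = Real.log (k + 2 : ℕ) + logProd L := by simp [logProd]

theorem logProd_nonneg (L : List ℕ) : 0 ≤ logProd L :=
  List.sum_nonneg fun x hx => by
    obtain ⟨k, -, rfl⟩ := List.mem_map.1 hx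
    exact Real.log_natCast_nonneg _

theorem sum_logProd_le {σ : ℝ} (hσ : 1 < σ) (K : ℕ) : ∀ F : Finset (List ℕ),
    (∀ L ∈ F, L.length ≤ K) → ∑ L ∈ F, Real.exp (-(σ * logProd L)) ≤
      ∑ j ∈ Finset.range (K + 1), zetaTail σ ^ j := by
  induction K with
  | zero =>
    intro F hF
    have hsub : F ⊆ {[]} := fun L hL =>
      Finset.mem_singleton.2 (List.length_eq_zero_iff.1 (Nat.le_zero.1 (hF L hL)))
    refine (Finset.sum_le_sum_of_subset_of_nonneg hsub fun L _ _ => (Real.exp_pos _).le).trans ?_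
    simp [logProd]
  | succ K ih =>
    intro F hF
    obtain ⟨T, hT⟩ : ∃ T, T = ((F.erase []).image List.tail) := ⟨_, rfl⟩
    obtain ⟨H, hH⟩ : ∃ H, H = ((F.erase []).image fun L => L.headI) := ⟨_, rfl⟩
    have hTK : ∀ L ∈ T, L.length ≤ K := fun L hL => by
      obtain ⟨M, hM, rfl⟩ := Finset.mem_image.1 (hT ▸ hL)
      have := hF M (Finset.mem_of_mem_erase hM)
      rw [List.length_tail]
      omega
    have hsub : F ⊆ insert [] ((H ×ˢ T).image fun z => z.1 :: z.2) := fun L hL => by
      cases L with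
      | nil => exact Finset.mem_insert_self _ _
      | cons k L =>
        have hmem : k :: L ∈ F.erase [] := Finset.mem_erase.2 ⟨by simp, hL⟩
        refine Finset.mem_insert_of_mem (Finset.mem_image.2 ⟨(k, L), Finset.mem_product.2
          ⟨hH ▸ Finset.mem_image.2 ⟨_, hmem, rfl⟩, hT ▸ Finset.mem_image.2 ⟨_, hmem, rfl⟩⟩, rfl⟩)
    refine (Finset.sum_le_sum_of_subset_of_nonneg hsub fun L _ _ => (Real.exp_pos _).le).trans ?_
    rw [Finset.sum_insert (by simp), Finset.sum_image fun a _ b _ hab => by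
      simp only [List.cons.injEq] at hab; exact Prod.ext hab.1 hab.2, Finset.sum_range_succ']
    have e : ∀ z : ℕ × List ℕ, Real.exp (-(σ * logProd (z.1 :: z.2))) =
        ((z.1 + 2 : ℕ) : ℝ) ^ (-σ) * Real.exp (-(σ * logProd z.2)) := fun z => by
      rw [logProd_cons, Real.rpow_def_of_pos (by positivity), ← Real.exp_add]
      ring_nf
    simp only [e, Finset.sum_product, ← Finset.mul_sum, ← Finset.sum_mul]
    rw [add_comm]
    refine add_le_add ?_ (le_of_eq (by simp [logProd]))
    simp only [pow_succ']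
    rw [← Finset.mul_sum]
    exact mul_le_mul ((summable_tail hσ).sum_le_tsum _ fun k _ => by positivity) (ih T hTK)
      (Finset.sum_nonneg fun L _ => (Real.exp_pos _).le) (tsum_nonneg fun k => by positivity)

theorem summable_logProd {σ : ℝ} (hσ : rho < σ) :
    Summable fun L => Real.exp (-(σ * logProd L)) := by
  have hσ1 := one_lt_rho.trans hσ
  have hq : zetaTail σ < 1 := zetaTail_rho ▸ zetaTail_lt one_lt_rho hσ
  have hq0 : 0 ≤ zetaTail σ := tsum_nonneg fun k => by positivity
  exact summable_of_sum_le (fun L => (Real.exp_pos _).le) fun F =>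
    (sum_logProd_le hσ1 (F.sup List.length) F fun L hL => Finset.le_sup (f := List.length) hL).trans
      ((summable_geometric_of_lt_one hq0 hq).sum_le_tsum _ fun j _ => pow_nonneg hq0 j)

theorem tsum_logProd {s : ℂ} (hs : rho < s.re) :
    ∑' L, cexp (-(s * logProd L)) = (2 - riemannZeta s)⁻¹ := by
  have hs1 := one_lt_rho.trans hs
  have hn : Summable fun L => ‖cexp (-(s * logProd L))‖ :=
    (summable_logProd hs).congr fun L => by rw [Complex.norm_exp]; simp
  obtain ⟨S, hS⟩ : ∃ S, S = ∑' L, cexp (-(s * logProd L)) := ⟨_, rfl⟩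
  have key : S = 1 + (∑' k, term s k) * S := by
    have hinj : Function.Injective fun z : ℕ × List ℕ => z.1 :: z.2 := fun a b hab => by
      simp only [List.cons.injEq] at hab; exact Prod.ext hab.1 hab.2
    conv_lhs => rw [hS, hn.of_norm.tsum_eq_add_tsum_ite []]
    congr 1
    · simp [logProd]
    rw [hS, tsum_mul_tsum_of_summable_norm (summable_norm_term hs1) hn, ← hinj.tsum_eq]
    · refine tsum_congr fun z => ?_
      rw [if_neg (by simp), term, logProd_cons, ← Complex.exp_add]
      push_cast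
      ring_nf
    · intro L hL
      cases L with
      | nil => simp at hL
      | cons k L => exact ⟨(k, L), rfl⟩
  rw [tsum_term hs1] at key
  rw [← hS, ← div_one S]
  have h2 : (2 - riemannZeta s) * S = 1 := by linear_combination key
  rw [div_one]
  exact eq_inv_of_mul_eq_one_right h2

/-- The quotient `(ζ z - 2) / (z - ρ)`. -/
def quot (z : ℂ) : ℂ := dslope riemannZeta (rho : ℂ) z

theorem quot_ne_zero {z : ℂ} (hz : rho ≤ z.re) : quot z ≠ 0 := by
  rcases eq_or_ne z (rho : ℂ) with rfl | hne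
  · rw [quot, dslope_same]
    exact fun h => deriv_zeta_rho_neg.ne (by rw [h, zero_re])
  · rw [quot, dslope_of_ne _ hne, slope_def_field, riemannZeta_rho]
    exact div_ne_zero (sub_ne_zero.2 fun h => hne (eq_rho_of_zeta_eq_two hz h))
      (sub_ne_zero.2 hne)

/-- `x ^ ρ` counts up to this constant. -/
def kalmarConst : ℝ := -1 / (rho * (deriv riemannZeta (rho : ℂ)).re)

theorem continuousOn_remainder :
    ContinuousOn (fun z => dslope (fun w => -(quot w)⁻¹) (rho : ℂ) z) {z | rho ≤ z.re} := by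
  have hq : DifferentiableOn ℂ quot {z | 1 < z.re} :=
    (Complex.differentiableOn_dslope (isOpen_half.mem_nhds mem_half_rho)).2 differentiableOn_zeta
  intro z (hz : rho ≤ z.re)
  have hz1 : z ∈ {z : ℂ | 1 < z.re} := one_lt_rho.trans_le hz
  have hda : ∀ {w : ℂ}, rho ≤ w.re → DifferentiableAt ℂ (fun w => -(quot w)⁻¹) w := fun {w} hw =>
    ((hq.differentiableAt (isOpen_half.mem_nhds (one_lt_rho.trans_le hw))).inv
      (quot_ne_zero hw)).neg
  rcases eq_or_ne z (rho : ℂ) with rfl | hne
  · exact (continuousAt_dslope_same.2 (hda (by simp))).continuousWithinAt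
  · exact ((continuousAt_dslope_of_ne hne).2 (hda hz).continuousAt).continuousWithinAt

theorem tendsto_logProd_count :
    Tendsto (fun u => FA.WienerIkehara.weightSum (fun L => rho * logProd L) (fun _ => 1) u *
      Real.exp (-u)) atTop (𝓝 kalmarConst) := by
  have hρ := one_lt_rho
  refine FA.WienerIkehara.tendsto_weightSum
    (G := fun s => dslope (fun w => -(quot w)⁻¹) (rho : ℂ) ((rho : ℂ) * s))
    (fun L => mul_nonneg (by linarith) (logProd_nonneg L)) (fun _ => zero_le_one)
    (fun σ hσ => ?_) ?_ fun s hs => ?_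
  · refine (summable_logProd (σ := σ * rho) (by nlinarith)).congr fun L => ?_
    rw [one_mul]; ring_nf
  · refine continuousOn_remainder.comp (by fun_prop) fun s (hs : 1 ≤ s.re) => ?_
    show rho ≤ ((rho : ℂ) * s).re
    rw [re_ofReal_mul]
    nlinarith
  · have hw : rho < ((rho : ℂ) * s).re := by rw [re_ofReal_mul]; nlinarith
    have hne : (rho : ℂ) * s ≠ rho := fun h => by rw [h, ofReal_re] at hw; exact lt_irrefl _ hw
    have e : ∑' L, ((1 : ℝ) : ℂ) * cexp (-(s * (rho * logProd L : ℝ))) =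
        (2 - riemannZeta ((rho : ℂ) * s))⁻¹ := by
      rw [← tsum_logProd hw]
      refine tsum_congr fun L => ?_
      push_cast
      ring_nf
    rw [e, dslope_of_ne _ hne, slope_def_field, quot, dslope_of_ne _ hne, slope_def_field, quot,
      dslope_same, riemannZeta_rho]
    have h2 : (2 : ℂ) - riemannZeta ((rho : ℂ) * s) ≠ 0 := fun h =>
      hne (eq_rho_of_zeta_eq_two hw.le (sub_eq_zero.1 h).symm)
    have hd : deriv riemannZeta (rho : ℂ) ≠ 0 := fun h =>
      deriv_zeta_rho_neg.ne (by rw [h, zero_re])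
    have hr : (rho : ℂ) ≠ 0 := Complex.ofReal_ne_zero.2 (by linarith)
    have hs1 : s - 1 ≠ 0 := sub_ne_zero.2 fun h => by rw [h, one_re] at hs; exact lt_irrefl _ hs
    rw [kalmarConst, ofReal_div, ofReal_mul, ← deriv_zeta_rho_ofReal]
    have e1 : (rho : ℂ) * s - rho = rho * (s - 1) := by ring
    have h3 : riemannZeta ((rho : ℂ) * s) - 2 ≠ 0 := by
      rw [← neg_sub]; exact neg_ne_zero.2 h2
    rw [e1]
    push_cast
    field_simp
    ring

theorem finite_logProd_le (u : ℝ) : {L | logProd L ≤ u}.Finite := by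
  have h := (summable_logProd (lt_add_one rho)).tendsto_cofinite_zero.eventually
    (eventually_lt_nhds (Real.exp_pos (-((rho + 1) * u))))
  refine (eventually_cofinite.1 h).subset fun L (hL : logProd L ≤ u) hlt => ?_
  exact hlt.not_ge (Real.exp_le_exp.2
    (neg_le_neg (mul_le_mul_of_nonneg_left hL (by linarith [one_lt_rho]))))

theorem prod_map_add_two (L : List ℕ) :
    (((L.map (· + 2)).prod : ℕ) : ℝ) = Real.exp (logProd L) := by
  induction L with
  | nil => simp [logProd]
  | cons k L ih =>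
    rw [logProd_cons, Real.exp_add, ← ih, Real.exp_log (by positivity)]
    push_cast [List.map_cons, List.prod_cons]
    rfl

/-- Lists of integers `≥ 2` as shifted lists. -/
def shiftEquiv : List ℕ ≃ {L : List ℕ // ∀ a ∈ L, 2 ≤ a} where
  toFun L := ⟨L.map (· + 2), fun a ha => by
    obtain ⟨k, -, rfl⟩ := List.mem_map.1 ha
    exact Nat.le_add_left 2 k⟩
  invFun L := L.1.map (· - 2)
  left_inv L := by simp [List.map_map, Function.comp_def]
  right_inv L := Subtype.ext (by
    dsimp only
    rw [List.map_map]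
    conv_rhs => rw [← List.map_id L.1]
    exact List.map_congr_left fun a ha => by
      simp only [Function.comp_apply, id_eq]
      have := L.2 a ha
      omega)

/-- **Kalmár's theorem.** -/
theorem tendsto_list_count :
    Tendsto (fun x : ℝ =>
      (Nat.card {L : List ℕ // (∀ a ∈ L, 2 ≤ a) ∧ ((L.prod : ℕ) : ℝ) ≤ x} : ℝ) / x ^ rho)
      atTop (𝓝 kalmarConst) := by
  have hρ0 : 0 < rho := one_pos.trans one_lt_rho
  refine (tendsto_logProd_count.comp
    (Real.tendsto_log_atTop.const_mul_atTop hρ0)).congr' ?_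
  filter_upwards [eventually_gt_atTop 0] with x hx
  rw [Function.comp_apply, Real.exp_neg, ← div_eq_mul_inv, Real.rpow_def_of_pos hx,
    mul_comm (Real.log x) rho]
  congr 1
  rw [FA.WienerIkehara.weightSum,
    tsum_eq_sum (f := fun L => if rho * logProd L ≤ rho * Real.log x then (1 : ℝ) else 0)
      (s := (finite_logProd_le (Real.log x)).toFinset) fun L hL => if_neg fun hle =>
      hL ((finite_logProd_le _).mem_toFinset.2 (le_of_mul_le_mul_left hle hρ0)),
    Finset.sum_congr rfl fun L hL => if_pos (mul_le_mul_of_nonneg_left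
      (show logProd L ≤ Real.log x from (finite_logProd_le _).mem_toFinset.1 hL) hρ0.le),
    Finset.sum_const, nsmul_eq_mul, mul_one, Nat.cast_inj,
    ← Nat.card_eq_card_finite_toFinset (finite_logProd_le _)]
  refine Nat.card_congr (((shiftEquiv.subtypeEquiv fun L => ?_)).trans
    (Equiv.subtypeSubtypeEquivSubtypeInter _ fun L : List ℕ => ((L.prod : ℕ) : ℝ) ≤ x))
  show logProd L ≤ Real.log x ↔ (((L.map (· + 2)).prod : ℕ) : ℝ) ≤ x
  rw [prod_map_add_two, Real.le_log_iff_exp_le hx]

end FA.Kalmar
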